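import Mathlib.AlgebraicGeometry.EllipticCurve.Affine.Point
import Fermat.Prelude.Def_FLTPrelim_Ramification

/-!
The group isomorphism on points attached to an admissible change of variables, and its
equivariance under Galois.
-/

set_option autoImplicit false

namespace Fermat.Agent.EC.Reduction

open WeierstrassCurve
open scoped WeierstrassCurve.Affine

variable {F : Type*} [Field F] (C : VariableChange F) (W : WeierstrassCurve F)

theorem nonsingular_variableChange {x y : F} (h : (C • W).toAffine.Nonsingular x y) :
    W.toAffine.Nonsingular (C.u ^ 2 * x + C.r) (C.u ^ 3 * y + C.u ^ 2 * C.s * x + C.t) := by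
  obtain ⟨u, r, s, t⟩ := C
  have hu : (u : F) ≠ 0 := u.ne_zero
  rw [Affine.nonsingular_iff', Affine.equation_iff] at h ⊢
  simp only [variableChange_a₁, variableChange_a₂, variableChange_a₃, variableChange_a₄,
    variableChange_a₆, Units.val_inv_eq_inv_val] at h
  obtain ⟨he, hd⟩ := h
  refine ⟨?_, ?_⟩
  · field_simp at he
    grind
  · by_contra hc
    push Not at hc
    obtain ⟨hX, hY⟩ := hc
    rcases hd with hd | hd <;> apply hd <;> field_simp <;> grind

/-- The point of `W` corresponding to a point of `C • W`. -/
noncomputable def variableChangePoint : (C • W).toAffine.Point → W.toAffine.Point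
  | .zero => 0
  | .some _ _ h => .some _ _ (nonsingular_variableChange C W h)

theorem variableChangePoint_injective : Function.Injective (variableChangePoint C W) := by
  rintro (_ | ⟨x, y, h⟩) (_ | ⟨x', y', h'⟩) he
  · rfl
  · exact absurd he.symm (Affine.Point.some_ne_zero _)
  · exact absurd he (Affine.Point.some_ne_zero _)
  · simp only [variableChangePoint, Affine.Point.some.injEq] at he
    obtain ⟨hx, hy⟩ := he
    have hu := C.u.ne_zero
    obtain rfl : x = x' := mul_left_cancel₀ (pow_ne_zero 2 hu) (add_right_cancel hx)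
    obtain rfl : y = y' :=
      mul_left_cancel₀ (pow_ne_zero 3 hu) (by linear_combination hy)
    rfl

variable [DecidableEq F]

theorem variableChangePoint_add (P Q : (C • W).toAffine.Point) :
    variableChangePoint C W (P + Q) = variableChangePoint C W P + variableChangePoint C W Q := by
  rcases P with _ | ⟨x₁, y₁, h₁⟩
  · rfl
  rcases Q with _ | ⟨x₂, y₂, h₂⟩
  · rfl
  have hu := C.u.ne_zero
  have hn : W.toAffine.negY (C.u ^ 2 * x₂ + C.r) (C.u ^ 3 * y₂ + C.u ^ 2 * C.s * x₂ + C.t) =
      C.u ^ 3 * (C • W).toAffine.negY x₂ y₂ + C.u ^ 2 * C.s * x₂ + C.t := by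
    simp only [Affine.negY, variableChange_a₁, variableChange_a₃, Units.val_inv_eq_inv_val]
    field_simp
    ring
  by_cases hK : x₁ = x₂ ∧ y₁ = (C • W).toAffine.negY x₂ y₂
  · rw [Affine.Point.add_of_Y_eq hK.1 hK.2]
    exact (Affine.Point.add_of_Y_eq (by rw [hK.1]) (by rw [hn, hK.1, hK.2])).symm
  have hK' : ¬((C.u : F) ^ 2 * x₁ + C.r = C.u ^ 2 * x₂ + C.r ∧
      (C.u : F) ^ 3 * y₁ + C.u ^ 2 * C.s * x₁ + C.t =
        W.toAffine.negY (C.u ^ 2 * x₂ + C.r) (C.u ^ 3 * y₂ + C.u ^ 2 * C.s * x₂ + C.t)) :=
      fun h => by
    have hx : x₁ = x₂ := mul_left_cancel₀ (pow_ne_zero 2 hu) (add_right_cancel h.1)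
    exact hK ⟨hx, mul_left_cancel₀ (pow_ne_zero 3 hu) (by
      have := h.2; rw [hn, hx] at this; linear_combination this)⟩
  rw [Affine.Point.add_some hK]
  simp only [variableChangePoint, Affine.Point.add_some hK', Affine.Point.some.injEq]
  have hl : W.toAffine.slope (C.u ^ 2 * x₁ + C.r) (C.u ^ 2 * x₂ + C.r)
      (C.u ^ 3 * y₁ + C.u ^ 2 * C.s * x₁ + C.t) (C.u ^ 3 * y₂ + C.u ^ 2 * C.s * x₂ + C.t) =
      C.u * (C • W).toAffine.slope x₁ x₂ y₁ y₂ + C.s := by
    by_cases hx : x₁ = x₂
    · have hyy := Affine.Y_eq_of_Y_ne h₁.1 h₂.1 hx fun h => hK ⟨hx, h⟩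
      subst hx hyy
      have hy : y₁ ≠ (C • W).toAffine.negY x₁ y₁ := fun h => hK ⟨rfl, h⟩
      have hd := sub_ne_zero.mpr hy
      rw [Affine.slope_of_Y_ne rfl hy, Affine.slope_of_Y_ne rfl fun h => hK' ⟨rfl, h⟩, hn,
        mul_div_assoc', div_add' _ _ _ hd,
        div_eq_div_iff (by
          intro h0
          exact hd (mul_left_cancel₀ (pow_ne_zero 3 hu) (by linear_combination h0))) hd]
      simp only [Affine.negY, variableChange_a₁, variableChange_a₂, variableChange_a₃,
        variableChange_a₄, Units.val_inv_eq_inv_val]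
      field_simp
      ring
    · have hd : (C.u : F) ^ 2 * x₁ + C.r - (C.u ^ 2 * x₂ + C.r) ≠ 0 := by
        rw [add_sub_add_right_eq_sub, ← mul_sub]
        exact mul_ne_zero (pow_ne_zero 2 hu) (sub_ne_zero.mpr hx)
      rw [Affine.slope_of_X_ne hx, Affine.slope_of_X_ne (fun h => hd (sub_eq_zero.mpr h)),
        mul_div_assoc', div_add' _ _ _ (sub_ne_zero.mpr hx),
        div_eq_div_iff hd (sub_ne_zero.mpr hx)]
      ring
  rw [hl]
  constructor <;>
    simp only [Affine.addX, Affine.addY, Affine.negAddY, Affine.negY, variableChange_a₁,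
      variableChange_a₂, variableChange_a₃, Units.val_inv_eq_inv_val] <;>
    field_simp <;> ring

/-- `variableChangePoint` as a homomorphism. -/
noncomputable def variableChangePointHom : (C • W).toAffine.Point →+ W.toAffine.Point :=
  AddMonoidHom.mk' (variableChangePoint C W) (variableChangePoint_add C W)

omit [DecidableEq F] in
theorem variableChangePoint_surjective : Function.Surjective (variableChangePoint C W) := by
  rintro (_ | ⟨x, y, h⟩)
  · exact ⟨0, rfl⟩
  have hu := C.u.ne_zero
  have h' : (C⁻¹ • C • W).toAffine.Nonsingular x y := by rwa [inv_smul_smul]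
  refine ⟨.some _ _ (nonsingular_variableChange C⁻¹ (C • W) h'), ?_⟩
  simp only [variableChangePoint, Affine.Point.some.injEq, VariableChange.inv_def,
    Units.val_inv_eq_inv_val]
  constructor <;> field_simp <;> ring

/-- The additive equivalence attached to a change of variables. -/
noncomputable def variableChangePointEquiv : (C • W).toAffine.Point ≃+ W.toAffine.Point :=
  AddEquiv.ofBijective (variableChangePointHom C W)
    ⟨variableChangePoint_injective C W, variableChangePoint_surjective C W⟩

/-- Points of equal curves. -/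
def pointCongr {W W' : WeierstrassCurve F} (h : W = W') :
    W.toAffine.Point ≃+ W'.toAffine.Point := by
  subst h; exact AddEquiv.refl _

theorem pointCongr_some {W W' : WeierstrassCurve F} (h : W = W') {x y : F}
    (hn : W.toAffine.Nonsingular x y) :
    pointCongr h (.some x y hn) = .some x y (h ▸ hn) := by
  subst h; rfl

section Galois

variable {k K : Type*} [Field k] [Field K] [DecidableEq K] [Algebra k K]

/-- A change of variables over `k` gives a Galois equivariant isomorphism on `K`-points. -/
theorem exists_equivariant_addEquiv {E E' : WeierstrassCurve k} (D : VariableChange k)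
    (h : D • E = E') : ∃ e : (E'⁄K).Point ≃+ (E⁄K).Point,
      ∀ (σ : K ≃ₐ[k] K) (P : (E'⁄K).Point), e (σ • P) = σ • e P := by
  subst h
  have hbc : (D • E).baseChange K = D.baseChange K • E.baseChange K :=
    (WeierstrassCurve.map_variableChange E D (algebraMap k K)).symm
  refine ⟨(pointCongr hbc).trans (variableChangePointEquiv _ _), fun σ P => ?_⟩
  rcases P with _ | ⟨x, y, hP⟩
  · exact ((pointCongr hbc).trans (variableChangePointEquiv _ _)).map_zero.trans
      (by rw [← Affine.Point.zero_def, map_zero, smul_zero])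
  · simp only [Affine.Point.algEquiv_smul_def, Affine.Point.map_some, AddEquiv.trans_apply]
    rw [pointCongr_some, pointCongr_some]
    change (Affine.Point.some _ _ _ : (E⁄K).Point) =
      Affine.Point.map σ.toAlgHom (Affine.Point.some _ _ _ : (E⁄K).Point)
    rw [Affine.Point.map_some, Affine.Point.some.injEq]
    constructor <;> simp [VariableChange.baseChange, VariableChange.map]

end Galois

end Fermat.Agent.EC.Reduction
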