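import Fermat.Agent.EC.Reduction.NoTorsion
import Fermat.Prelude.Def_EllipticCurve_ZeroComponentAt
import Fermat.Prelude.Def_EllipticCurve_FrobeniusTrace
import Fermat.Prelude.Def_GaloisRep_Residual
import Mathlib.Algebra.CharP.Lemmas

/-!
Galois equivariance of reduction, and the criterion of Néron–Ogg–Shafarevich (easy direction)
for integral models: inertia at `q ∤ n` fixes every `n`-torsion point with nonsingular reduction.
-/

set_option autoImplicit false

namespace Fermat.Agent.EC.Reduction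

open WeierstrassCurve
open scoped WeierstrassCurve.Affine Pointwise

/-! ### The residue homomorphism and the decomposition group -/

section Residue

variable {S K k : Type*} [Field S] [Field K] [Field k] [Algebra S K] {A : ValuationSubring K}
  {π : A →+* k} [IsLocalHom π]

theorem apply_mem_iff_of_mem_decomposition {σ : K ≃ₐ[S] K}
    (hσ : σ ∈ A.decompositionSubgroup S) (x : K) : σ x ∈ A ↔ x ∈ A := by
  have h : σ • A = A := MulAction.mem_stabilizer_iff.mp hσ
  conv_lhs => rw [← h]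
  rw [← AlgEquiv.smul_def]
  exact ValuationSubring.smul_mem_pointwise_smul_iff

theorem apply_mem_of_mem_decomposition {σ : K ≃ₐ[S] K} (hσ : σ ∈ A.decompositionSubgroup S)
    {x : K} (hx : x ∈ A) : σ x ∈ A :=
  (apply_mem_iff_of_mem_decomposition hσ x).mpr hx

/-- Local homomorphisms do not see the difference of elements with equal residues. -/
theorem map_eq_of_residue_eq {a b : A}
    (h : IsLocalRing.residue A a = IsLocalRing.residue A b) : π a = π b := by
  by_contra hne
  have hu : IsUnit (a - b) := IsLocalHom.map_nonunit (f := π) (a - b)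
    (Ne.isUnit (by rwa [map_sub, sub_ne_zero]))
  rw [← sub_eq_zero, ← map_sub, IsLocalRing.residue_eq_zero_iff] at h
  exact h hu

omit [IsLocalHom π] in
theorem mem_decomposition_of_mem_inertia {σ : K ≃ₐ[S] K} (hσ : σ ∈ A.inertiaSubgroupIn S) :
    σ ∈ A.decompositionSubgroup S := by
  obtain ⟨g, -, rfl⟩ := Subgroup.mem_map.mp hσ
  exact g.2

/-- An inertia element acts trivially on residues. -/
theorem res_inertia {σ : K ≃ₐ[S] K} (hσ : σ ∈ A.inertiaSubgroupIn S) {a : K} {b : k}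
    (h : Res π a b) : Res π (σ a) b := by
  obtain ⟨g, hg, rfl⟩ := Subgroup.mem_map.mp hσ
  obtain ⟨ha, rfl⟩ := h
  refine ⟨apply_mem_of_mem_decomposition g.2 ha, map_eq_of_residue_eq ?_⟩
  exact DFunLike.congr_fun (MonoidHom.mem_ker.mp hg) (IsLocalRing.residue A ⟨a, ha⟩)

/-- A Frobenius element acts on residues as the `q`th power. -/
theorem res_frobenius {σ : K ≃ₐ[S] K} {q : ℕ} (hσ : A.IsFrobeniusAt σ q) {a : K} {b : k}
    (h : Res π a b) : Res π (σ a) (b ^ q) := by
  obtain ⟨ha, rfl⟩ := h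
  refine ⟨apply_mem_of_mem_decomposition hσ.mem_decompositionSubgroup ha, ?_⟩
  rw [← map_pow]
  refine map_eq_of_residue_eq ?_
  rw [map_pow]
  exact hσ.smul_residue_eq (IsLocalRing.residue A ⟨a, ha⟩)

theorem map_natCast_eq_zero {q : ℕ} (hA : A.LiesOverPrime q) : π (q : A) = 0 := by
  by_contra hne
  exact (ValuationSubring.mem_nonunits_iff_exists_mem_maximalIdeal.mp hA).choose_spec
    (IsLocalHom.map_nonunit (f := π) _ (Ne.isUnit hne))

/-- The residue characteristic at a valuation subring over `q` is `q`. -/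
theorem charP_of_liesOverPrime (π : A →+* k) [IsLocalHom π] {q : ℕ} (hq : q.Prime)
    (hA : A.LiesOverPrime q) : CharP k q :=
  (CharP.charP_iff_prime_eq_zero hq).mpr (by
    simpa using map_natCast_eq_zero (π := π) hA)

theorem natCast_ne_zero_of_liesOverPrime (π : A →+* k) [IsLocalHom π] {q n : ℕ} (hq : q.Prime)
    (hA : A.LiesOverPrime q) (hn : ¬ q ∣ n) : (n : k) ≠ 0 := by
  have := charP_of_liesOverPrime π hq hA
  rwa [Ne, CharP.cast_eq_zero_iff k q]

end Residue

/-! ### Equivariance -/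

section Galois

variable {R S K k : Type*} [CommRing R] [Field S] [Field K] [Field k] [DecidableEq K]
  [Algebra R S] [Algebra R K] [Algebra S K] [IsScalarTower R S K]
  {A : ValuationSubring K} {π : A →+* k} [IsLocalHom π]
  {W' : Affine R} {W₀ : WeierstrassCurve k}

omit [IsLocalHom π] in
/-- Elements of the decomposition group preserve the points reducing to infinity, and act on the
reductions of the other points through the residues. -/
theorem redTo_smul_some {σ : K ≃ₐ[S] K} {τ : k → k}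
    (hτ : ∀ {a : K} {b : k}, Res π a b → Res π (σ a) (τ b)) {x y : K}
    {h : (W'⁄K).Nonsingular x y} {x₀ y₀ : k} {h₀' : W₀.toAffine.Nonsingular (τ x₀) (τ y₀)}
    (hx : Res π x x₀) (hy : Res π y y₀) :
    RedTo π W₀ (σ • Affine.Point.some x y h : (W'⁄K).Point) (.some (τ x₀) (τ y₀) h₀') :=
  RedTo.of_res (hτ hx) (hτ hy)

omit [IsLocalHom π] in
theorem redTo_smul_zero {σ : K ≃ₐ[S] K} (hσ : σ ∈ A.decompositionSubgroup S)
    {P : (W'⁄K).Point} (h : RedTo π W₀ P 0) : RedTo π W₀ (σ • P) 0 := by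
  rcases P with _ | ⟨x, y, hP⟩
  · exact RedTo.zero
  · rcases h with ⟨hx, -⟩ | ⟨x₀, y₀, h₀, -, -, h0⟩
    · exact RedTo.of_notMem fun hm => hx ((apply_mem_iff_of_mem_decomposition hσ x).mp hm)
    · exact absurd h0.symm (Affine.Point.some_ne_zero h₀)

/-- Inertia preserves the reduction of a point. -/
theorem redTo_smul_of_mem_inertia {σ : K ≃ₐ[S] K} (hσ : σ ∈ A.inertiaSubgroupIn S)
    {P : (W'⁄K).Point} {Q : W₀.toAffine.Point} (h : RedTo π W₀ P Q) :
    RedTo π W₀ (σ • P) Q := by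
  rcases P with _ | ⟨x, y, hP⟩
  · exact h
  rcases h with ⟨hx, rfl⟩ | ⟨x₀, y₀, h₀, hx, hy, rfl⟩
  · exact RedTo.of_notMem fun hm =>
      hx ((apply_mem_iff_of_mem_decomposition (mem_decomposition_of_mem_inertia hσ) x).mp hm)
  · exact redTo_smul_some (τ := id) (fun h => res_inertia hσ h) hx hy

/-- Inertia fixes torsion points prime to the residue characteristic with nonsingular
reduction. -/
theorem smul_eq_of_redTo [DecidableEq k] {σ : K ≃ₐ[S] K} (hσ : σ ∈ A.inertiaSubgroupIn S)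
    (hred : Reduces π (W'⁄K) W₀) {P : (W'⁄K).Point} {Q : W₀.toAffine.Point}
    (h : RedTo π W₀ P Q) {n : ℕ} (hn : (n : k) ≠ 0) (hP : n • P = 0) : σ • P = P :=
  eq_of_redTo_of_nsmul_eq_zero hred (redTo_smul_of_mem_inertia hσ h) h hn
    ((smul_comm n σ P).trans (by rw [hP]; exact smul_zero σ)) hP

/-- Good reduction at a place prime to `n`: inertia fixes all `n`-torsion. -/
theorem smul_eq_of_Δ_ne_zero [DecidableEq k] {σ : K ≃ₐ[S] K} (hσ : σ ∈ A.inertiaSubgroupIn S)
    (hred : Reduces π (W'⁄K) W₀) (hΔ : W₀.Δ ≠ 0) {P : (W'⁄K).Point} {n : ℕ} (hn : (n : k) ≠ 0)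
    (hP : n • P = 0) : σ • P = P :=
  let ⟨_, hQ⟩ := exists_redTo_of_Δ_ne_zero hred hΔ P
  smul_eq_of_redTo hσ hred hQ hn hP

end Galois

/-! ### Integral models -/

section IntModel

variable {K k : Type*} [Field K] [Field k] [Algebra ℚ K] {A : ValuationSubring K}

/-- An integral model reduces coefficientwise at every valuation subring. -/
theorem reduces_intModel (W : WeierstrassCurve ℤ) (π : A →+* k) :
    Reduces π ((W.map (Int.castRingHom ℚ))⁄K) (W.map (Int.castRingHom k)) := by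
  refine ⟨?_, ?_, ?_, ?_, ?_⟩ <;>
    simpa [WeierstrassCurve.baseChange] using Res.intCast (π := π) _

omit [Algebra ℚ K] in
theorem Δ_intModel_ne_zero {W : WeierstrassCurve ℤ} (π : A →+* k) [IsLocalHom π] {q : ℕ}
    (hq : q.Prime) (hA : A.LiesOverPrime q) (hW : ¬ (q : ℤ) ∣ W.Δ) :
    (W.map (Int.castRingHom k)).Δ ≠ 0 := by
  have := charP_of_liesOverPrime π hq hA
  rw [map_Δ, eq_intCast, Ne, CharP.intCast_eq_zero_iff k q]
  exact hW

theorem inZeroComponentAt_iff (W : WeierstrassCurve ℤ)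
    (A : ValuationSubring (AlgebraicClosure ℚ))
    (P : ((W.map (Int.castRingHom ℚ))⁄(AlgebraicClosure ℚ)).Point) :
    W.InZeroComponentAt A P ↔ P ∈ zeroComponent (IsLocalRing.residue A)
      (reduces_intModel W (IsLocalRing.residue A)) := by
  constructor
  · rintro (rfl | ⟨x, y, h, rfl, hx | ⟨hx, hy, hns⟩⟩)
    · exact zero_mem _
    · exact ⟨0, RedTo.of_notMem hx⟩
    · exact ⟨_, RedTo.of_res (h₀ := hns) ⟨hx, rfl⟩ ⟨hy, rfl⟩⟩
  · rintro ⟨Q, hQ⟩
    rcases P with _ | ⟨x, y, h⟩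
    · exact Or.inl rfl
    rcases hQ with ⟨hx, -⟩ | ⟨x₀, y₀, h₀, ⟨hx, rfl⟩, ⟨hy, rfl⟩, -⟩
    · exact Or.inr ⟨x, y, h, rfl, Or.inl hx⟩
    · exact Or.inr ⟨x, y, h, rfl, Or.inr ⟨hx, hy, h₀⟩⟩

/-- Inertia at `A ∣ q` fixes the points of order dividing `n`, `q ∤ n`, lying on the identity
component. -/
theorem smul_eq_of_inZeroComponentAt {W : WeierstrassCurve ℤ}
    {A : ValuationSubring (AlgebraicClosure ℚ)} {q n : ℕ} (hq : q.Prime) (hA : A.LiesOverPrime q)
    (hn : ¬ q ∣ n) {σ : AlgebraicClosure ℚ ≃ₐ[ℚ] AlgebraicClosure ℚ}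
    (hσ : σ ∈ A.inertiaSubgroupIn ℚ)
    {P : ((W.map (Int.castRingHom ℚ))⁄(AlgebraicClosure ℚ)).Point}
    (hP : W.InZeroComponentAt A P) (hnP : n • P = 0) : σ • P = P := by
  classical
  obtain ⟨Q, hQ⟩ := (inZeroComponentAt_iff W A P).mp hP
  exact smul_eq_of_redTo hσ (reduces_intModel W _) hQ
    (natCast_ne_zero_of_liesOverPrime (IsLocalRing.residue A) hq hA hn) hnP

/-- An integral model with `q ∤ nΔ` has unramified `n`-torsion at `q`. -/
theorem galoisRepUnramifiedAt_intModel {W : WeierstrassCurve ℤ} {q n : ℕ} (hq : q.Prime)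
    (hW : ¬ (q : ℤ) ∣ W.Δ) (hn : ¬ q ∣ n) :
    WeierstrassCurve.Affine.Point.GaloisRepUnramifiedAt (K := AlgebraicClosure ℚ) ℚ
      (W.map (Int.castRingHom ℚ)).toAffine n q := by
  classical
  intro A hA σ hσ x
  apply Subtype.ext
  refine smul_eq_of_Δ_ne_zero hσ (reduces_intModel W (IsLocalRing.residue A))
    (Δ_intModel_ne_zero (IsLocalRing.residue A) hq hA hW)
    (natCast_ne_zero_of_liesOverPrime (IsLocalRing.residue A) hq hA hn) ?_
  have := x.2
  rw [Submodule.mem_torsionBy_iff] at this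
  exact (Nat.cast_smul_eq_nsmul ℤ n _).symm.trans this

end IntModel

end Fermat.Agent.EC.Reduction
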