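import Fermat.Agent.EC.Reduction.Galois
import Mathlib.SetTheory.Cardinal.NatCard

/-!
Reduction on torsion at places of good reduction.
-/

set_option autoImplicit false

namespace Fermat.Agent.EC.Reduction

open WeierstrassCurve
open scoped WeierstrassCurve.Affine

variable {K k : Type*} [Field K] [Field k] [DecidableEq K] [DecidableEq k] {A : ValuationSubring K}
  {π : A →+* k} [IsLocalHom π] {E : WeierstrassCurve K} {W₀ : WeierstrassCurve k}

omit [DecidableEq K] [DecidableEq k] in
/-- With good reduction every point lies on the identity component. -/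
theorem redTo_red (hred : Reduces π E W₀) (hΔ : W₀.Δ ≠ 0) (P : E.toAffine.Point) :
    RedTo π W₀ P (red π W₀ P) := by
  obtain ⟨Q, hQ⟩ := exists_redTo_of_Δ_ne_zero hred hΔ P
  rwa [red_eq hQ]

/-- Reduction on all points, at a place of good reduction. -/
noncomputable def redGood (hred : Reduces π E W₀) (hΔ : W₀.Δ ≠ 0) :
    E.toAffine.Point →+ W₀.toAffine.Point :=
  AddMonoidHom.mk' (red π W₀) fun P P' =>
    red_eq ((redTo_red hred hΔ P).add hred (redTo_red hred hΔ P'))

/-- Reduction on `n`-torsion, at a place of good reduction. -/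
noncomputable def redTorsion (hred : Reduces π E W₀) (hΔ : W₀.Δ ≠ 0) (n : ℕ) :
    Submodule.torsionBy ℤ E.toAffine.Point n →+ Submodule.torsionBy ℤ W₀.toAffine.Point n :=
  AddMonoidHom.mk' (fun P => ⟨redGood hred hΔ P.1, by
      have := P.2
      rw [Submodule.mem_torsionBy_iff] at this ⊢
      rw [← map_zsmul, this, map_zero]⟩)
    fun P P' => Subtype.ext (map_add (redGood hred hΔ) P.1 P'.1)

theorem redTorsion_apply (hred : Reduces π E W₀) (hΔ : W₀.Δ ≠ 0) (n : ℕ)
    (P : Submodule.torsionBy ℤ E.toAffine.Point n) :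
    (redTorsion hred hΔ n P : W₀.toAffine.Point) = red π W₀ (P : E.toAffine.Point) := rfl

theorem redTorsion_injective (hred : Reduces π E W₀) (hΔ : W₀.Δ ≠ 0) {n : ℕ} (hn : (n : k) ≠ 0) :
    Function.Injective (redTorsion hred hΔ n) := fun P P' h => by
  have hP := P.2
  have hP' := P'.2
  rw [Submodule.mem_torsionBy_iff, Nat.cast_smul_eq_nsmul] at hP hP'
  apply Subtype.ext
  refine eq_of_redTo_of_nsmul_eq_zero hred (redTo_red hred hΔ _) ?_ hn hP hP'
  have := congrArg Subtype.val h
  rw [redTorsion_apply, redTorsion_apply] at this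
  rw [this]
  exact redTo_red hred hΔ _

variable {R S : Type*} [CommRing R] [Field S] [Algebra R S] [Algebra R K] [Algebra S K]
  [IsScalarTower R S K] {W' : Affine R}

omit [DecidableEq k] in
/-- A Frobenius element acts on reductions by raising the coordinates to the `q`th power. -/
theorem redTo_smul_of_isFrobeniusAt {σ : K ≃ₐ[S] K} {q : ℕ} (hσ : A.IsFrobeniusAt σ q)
    {x y : K} {h : (W'⁄K).Nonsingular x y} {x₀ y₀ : k}
    {h₀' : W₀.toAffine.Nonsingular (x₀ ^ q) (y₀ ^ q)} (hx : Res π x x₀) (hy : Res π y y₀) :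
    RedTo π W₀ (σ • Affine.Point.some x y h : (W'⁄K).Point)
      (.some (x₀ ^ q) (y₀ ^ q) h₀') :=
  redTo_smul_some (τ := fun b => b ^ q) (fun h => res_frobenius hσ h) hx hy

end Fermat.Agent.EC.Reduction
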