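import Fermat.Agent.EC.Reduction.Res
import Mathlib.AlgebraicGeometry.EllipticCurve.Projective.Point

/-!
Reduction of points of a Weierstrass curve at a valuation subring.

`Reduces π E W₀`: the coefficients of `E` lie in `A` and reduce to those of `W₀`.
`RedTo π W₀ P Q`: the point `P` of `E` has the nonsingular reduction `Q`.
The relation is additive, so points with nonsingular reduction form a subgroup `zeroComponent`;
`red` is the reduction map on points.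
-/

set_option autoImplicit false

namespace Fermat.Agent.EC.Reduction

open WeierstrassCurve

variable {K k : Type*} [Field K] [Field k] {A : ValuationSubring K}

/-- The coefficients of `E` lie in `A` and reduce to those of `W₀`. -/
structure Reduces (π : A →+* k) (E : WeierstrassCurve K) (W₀ : WeierstrassCurve k) : Prop where
  a₁ : Res π E.a₁ W₀.a₁
  a₂ : Res π E.a₂ W₀.a₂
  a₃ : Res π E.a₃ W₀.a₃
  a₄ : Res π E.a₄ W₀.a₄
  a₆ : Res π E.a₆ W₀.a₆

variable {π : A →+* k} {E : WeierstrassCurve K} {W₀ : WeierstrassCurve k}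

namespace Reduces

/-- The model over `A` underlying a reducible curve. -/
def model (h : Reduces π E W₀) : WeierstrassCurve A :=
  ⟨⟨E.a₁, h.a₁.mem⟩, ⟨E.a₂, h.a₂.mem⟩, ⟨E.a₃, h.a₃.mem⟩, ⟨E.a₄, h.a₄.mem⟩, ⟨E.a₆, h.a₆.mem⟩⟩

theorem model_map_subtype (h : Reduces π E W₀) : h.model.map A.subtype = E := rfl

theorem model_map (h : Reduces π E W₀) : h.model.map π = W₀ := by
  ext <;> [exact h.a₁.2; exact h.a₂.2; exact h.a₃.2; exact h.a₄.2; exact h.a₆.2]

theorem res_Δ (h : Reduces π E W₀) : Res π E.Δ W₀.Δ := by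
  have h1 : A.subtype h.model.Δ = E.Δ := (map_Δ h.model A.subtype).symm
  have h2 : π h.model.Δ = W₀.Δ := by
    rw [← map_Δ]; exact congrArg WeierstrassCurve.Δ h.model_map
  rw [← h1]
  exact ⟨h.model.Δ.2, h2⟩

theorem equation (h : Reduces π E W₀) {x y : K} {x₀ y₀ : k} (he : E.toAffine.Equation x y)
    (hx : Res π x x₀) (hy : Res π y y₀) : W₀.toAffine.Equation x₀ y₀ := by
  rw [Affine.equation_iff] at he ⊢
  exact (((hy.pow 2).add ((h.a₁.mul hx).mul hy)).add (h.a₃.mul hy)).unique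
    (he ▸ (((hx.pow 3).add (h.a₂.mul (hx.pow 2))).add (h.a₄.mul hx)).add h.a₆)

/-- An integral abscissa forces an integral ordinate. -/
theorem y_mem [IsLocalHom π] (h : Reduces π E W₀) {x y : K} (he : E.toAffine.Equation x y)
    (hx : x ∈ A) : y ∈ A := by
  by_contra hy
  have h0 : y ≠ 0 := fun h0 => hy (h0 ▸ A.zero_mem)
  rw [Affine.equation_iff] at he
  have hi := Res.inv_of_notMem π hy
  have hx' := Res.of_mem π hx
  have hid : (1 : K) = ((x ^ 3 + E.a₂ * x ^ 2 + E.a₄ * x + E.a₆) * y⁻¹ - E.a₁ * x - E.a₃)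
      * y⁻¹ := by
    field_simp
    linear_combination he
  have := ((((((hx'.pow 3).add (h.a₂.mul (hx'.pow 2))).add (h.a₄.mul hx')).add h.a₆).mul hi).sub
    (h.a₁.mul hx')).sub h.a₃ |>.mul hi
  rw [← hid, mul_zero] at this
  exact one_ne_zero (Res.one.unique this)

/-- At a pole of `x`, the ratio `x / y` reduces to zero. -/
theorem res_div_of_notMem [IsLocalHom π] (h : Reduces π E W₀) {x y : K}
    (he : E.toAffine.Equation x y) (hx : x ∉ A) :
    y ∉ A ∧ Res π (x / y) 0 := by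
  have hx0 : x ≠ 0 := fun h0 => hx (h0 ▸ A.zero_mem)
  have hi := Res.inv_of_notMem π hx
  rw [Affine.equation_iff] at he
  have hs : y / x ∉ A := fun hm => by
    have hs' := Res.of_mem π hm
    have hid : (1 : K) = ((y / x) ^ 2 + E.a₁ * (y / x) + E.a₃ * (y / x) * x⁻¹) * x⁻¹ -
        (E.a₂ + E.a₄ * x⁻¹ + E.a₆ * x⁻¹ ^ 2) * x⁻¹ := by
      field_simp
      linear_combination -he
    have := ((((hs'.pow 2).add (h.a₁.mul hs')).add ((h.a₃.mul hs').mul hi)).mul hi).sub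
      (((h.a₂.add (h.a₄.mul hi)).add (h.a₆.mul (hi.pow 2))).mul hi)
    rw [← hid] at this
    simpa using Res.one.unique this
  have hy : y ∉ A := fun hy => hs (by
    rw [div_eq_mul_inv]; exact A.mul_mem _ _ hy hi.mem)
  exact ⟨hy, by simpa [inv_div] using Res.inv_of_notMem π hs⟩

end Reduces

/-- In both cases of the chord/tangent construction, the slope times
`y₁ + y₂ + a₁ x₂ + a₃` is the symmetrised partial derivative. -/
theorem slope_mul_den {F : Type*} [Field F] [DecidableEq F] (W : Affine F) {x₁ x₂ y₁ y₂ : F}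
    (h₁ : W.Equation x₁ y₁) (h₂ : W.Equation x₂ y₂) (hxy : ¬(x₁ = x₂ ∧ y₁ = W.negY x₂ y₂)) :
    W.slope x₁ x₂ y₁ y₂ * (y₁ + y₂ + W.a₁ * x₂ + W.a₃) =
      x₁ ^ 2 + x₁ * x₂ + x₂ ^ 2 + W.a₂ * (x₁ + x₂) + W.a₄ - W.a₁ * y₁ := by
  by_cases hx : x₁ = x₂
  · have hy : y₁ ≠ W.negY x₂ y₂ := fun hy => hxy ⟨hx, hy⟩
    have := Affine.Y_eq_of_Y_ne h₁ h₂ hx hy
    subst hx this
    rw [Affine.slope_of_Y_ne rfl hy]
    have hd : y₁ - W.negY x₁ y₁ ≠ 0 := sub_ne_zero.mpr hy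
    rw [div_mul_eq_mul_div, div_eq_iff hd, Affine.negY]
    ring
  · rw [Affine.slope_of_X_ne hx, div_mul_eq_mul_div, div_eq_iff (sub_ne_zero.mpr hx)]
    rw [Affine.equation_iff] at h₁ h₂
    linear_combination h₁ - h₂

/-- `P` has the nonsingular reduction `Q`. -/
def RedTo (π : A →+* k) (W₀ : WeierstrassCurve k) :
    E.toAffine.Point → W₀.toAffine.Point → Prop
  | .zero, Q => Q = 0
  | .some x y _, Q => (x ∉ A ∧ Q = 0) ∨
      ∃ (x₀ y₀ : k) (h₀ : W₀.toAffine.Nonsingular x₀ y₀),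
        Res π x x₀ ∧ Res π y y₀ ∧ Q = .some x₀ y₀ h₀

namespace RedTo

theorem zero : RedTo π W₀ (0 : E.toAffine.Point) 0 := rfl

theorem of_notMem {x y : K} {h : E.toAffine.Nonsingular x y} (hx : x ∉ A) :
    RedTo π W₀ (.some x y h) 0 :=
  Or.inl ⟨hx, rfl⟩

theorem of_res {x y : K} {h : E.toAffine.Nonsingular x y} {x₀ y₀ : k}
    {h₀ : W₀.toAffine.Nonsingular x₀ y₀} (hx : Res π x x₀) (hy : Res π y y₀) :
    RedTo π W₀ (.some x y h) (.some x₀ y₀ h₀) :=
  Or.inr ⟨x₀, y₀, h₀, hx, hy, rfl⟩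

theorem unique {P : E.toAffine.Point} {Q Q' : W₀.toAffine.Point} (h : RedTo π W₀ P Q)
    (h' : RedTo π W₀ P Q') : Q = Q' := by
  rcases P with _ | ⟨x, y, hP⟩
  · exact Eq.trans h (Eq.symm h')
  · rcases h with ⟨hx, rfl⟩ | ⟨x₀, y₀, h₀, hx, hy, rfl⟩ <;>
      rcases h' with ⟨hx', rfl⟩ | ⟨x₀', y₀', h₀', hx', hy', rfl⟩
    · rfl
    · exact absurd hx'.mem hx
    · exact absurd hx.mem hx'
    · simp [hx.unique hx', hy.unique hy']

theorem neg (hred : Reduces π E W₀) {P : E.toAffine.Point} {Q : W₀.toAffine.Point}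
    (h : RedTo π W₀ P Q) : RedTo π W₀ (-P) (-Q) := by
  rcases P with _ | ⟨x, y, hP⟩
  · obtain rfl : Q = 0 := h
    exact zero
  · rcases h with ⟨hx, rfl⟩ | ⟨x₀, y₀, h₀, hx, hy, rfl⟩
    · exact of_notMem hx
    · rw [Affine.Point.neg_some, Affine.Point.neg_some]
      exact of_res hx ((hy.neg.sub (hred.a₁.mul hx)).sub hred.a₃)

end RedTo

variable [DecidableEq K] [IsLocalHom π]

/-- Adding a point reducing to the point at infinity does not change the residues of the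
coordinates of an integral point (which may have singular reduction). -/
theorem exists_res_of_notMem_add (hred : Reduces π E W₀) {x₁ y₁ x₂ y₂ : K}
    {h₁ : E.toAffine.Nonsingular x₁ y₁} {h₂ : E.toAffine.Nonsingular x₂ y₂} {x₀ y₀ : k}
    (hx₁ : x₁ ∉ A) (hx₂ : Res π x₂ x₀) (hy₂ : Res π y₂ y₀) :
    ∃ (x y : K) (h : E.toAffine.Nonsingular x y),
      Affine.Point.some x₁ y₁ h₁ + .some x₂ y₂ h₂ = .some x y h ∧ Res π x x₀ ∧ Res π y y₀ := by
  obtain ⟨hy₁, ht⟩ := hred.res_div_of_notMem h₁.1 hx₁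
  have hy0 : y₁ ≠ 0 := fun h0 => hy₁ (h0 ▸ A.zero_mem)
  have hw := Res.inv_of_notMem π hy₁
  set W : Projective K := E.toProjective
  have hP : W.Nonsingular ![x₁, y₁, 1] := (Projective.nonsingular_some ..).mpr h₁
  have hQ : W.Nonsingular ![x₂, y₂, 1] := (Projective.nonsingular_some ..).mpr h₂
  have hne := Projective.not_equiv_of_X_ne (P := ![x₁, y₁, 1]) (Q := ![x₂, y₂, 1])
    (show x₁ * 1 ≠ x₂ * 1 by simpa using fun he : x₁ = x₂ => hx₁ (he ▸ hx₂.mem))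
  let PA : Fin 3 → A := ![⟨x₁ / y₁, ht.mem⟩, 1, ⟨y₁⁻¹, hw.mem⟩]
  let QA : Fin 3 → A := ![⟨x₂, hx₂.mem⟩, ⟨y₂, hy₂.mem⟩, 1]
  let RA : Fin 3 → A := hred.model.toProjective.addXYZ PA QA
  have hRK : (A.subtype ∘ RA : Fin 3 → K) =
      (y₁⁻¹ * 1) ^ 2 • W.addXYZ ![x₁, y₁, 1] ![x₂, y₂, 1] := by
    rw [← Projective.addXYZ_smul, ← Projective.map_addXYZ (f := A.subtype)]
    congr 1
    · funext i; fin_cases i <;> simp [PA, div_eq_inv_mul, hy0]
    · funext i; fin_cases i <;> simp [QA]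
  have hRk : π ∘ RA = ![x₀, y₀, 1] := by
    have hP₀ : π ∘ PA = ![0, 1, 0] := by
      funext i; fin_cases i <;> simp [PA, ht.2, hw.2]
    have hQ₀ : π ∘ QA = ![x₀, y₀, 1] := by
      funext i; fin_cases i <;> simp [QA, hx₂.2, hy₂.2]
    rw [← Projective.map_addXYZ (f := π), hP₀, hQ₀]
    have := hred.model_map
    change (hred.model.map π).toProjective.addXYZ _ _ = _
    rw [this, Projective.addXYZ_of_Z_eq_zero_left ((Projective.equation_zero)) rfl]
    simp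
  have hres : ∀ i, Res π (A.subtype (RA i)) ((![x₀, y₀, 1] : Fin 3 → k) i) := fun i =>
    ⟨SetLike.coe_mem _, congrFun hRk i⟩
  have hz : A.subtype (RA 2) ≠ 0 := (hres 2).ne_zero one_ne_zero
  have hu : IsUnit ((y₁⁻¹ * 1) ^ 2 : K) := (Ne.isUnit (by simp [hy0]))
  have hR : W.Nonsingular (A.subtype ∘ RA) := by
    rw [hRK, Projective.nonsingular_smul _ hu, ← Projective.add_of_not_equiv hne]
    exact Projective.nonsingular_add hP hQ
  have hsum := Projective.Point.toAffine_add hP hQ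
  rw [Projective.add_of_not_equiv hne, Projective.Point.toAffine_some hP,
    Projective.Point.toAffine_some hQ, ← Projective.Point.toAffine_smul _ hu, ← hRK,
    Projective.Point.toAffine_of_Z_ne_zero hR hz] at hsum
  refine ⟨_, _, _, hsum.symm, ?_, ?_⟩
  · simpa using (hres 0).div (hres 2) one_ne_zero
  · simpa using (hres 1).div (hres 2) one_ne_zero

/-- The point-at-infinity residue class is closed under addition. -/
theorem notMem_of_notMem_add (hred : Reduces π E W₀) {x₁ y₁ x₂ y₂ x y : K}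
    {h₁ : E.toAffine.Nonsingular x₁ y₁} {h₂ : E.toAffine.Nonsingular x₂ y₂}
    {h : E.toAffine.Nonsingular x y} (hx₁ : x₁ ∉ A) (hx₂ : x₂ ∉ A)
    (he : Affine.Point.some x₁ y₁ h₁ + .some x₂ y₂ h₂ = .some x y h) : x ∉ A := by
  intro hx
  obtain ⟨x', y', h', hs, hx', -⟩ := exists_res_of_notMem_add hred
      (h₁ := (Affine.nonsingular_neg ..).mpr h₂)
    (h₂ := h) hx₂ (Res.of_mem π hx) (Res.of_mem π (hred.y_mem h.1 hx))
  rw [← Affine.Point.neg_some h₂, ← he, neg_add_cancel_comm_assoc, Affine.Point.some.injEq] at hs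
  exact hx₁ (hs.1 ▸ hx'.mem)

section

variable [DecidableEq k]

omit [DecidableEq K] [IsLocalHom π] [DecidableEq k] in
theorem addX_notMem (hred : Reduces π E W₀) {x₁ x₂ : K} {l : K} (hx₁ : x₁ ∈ A)
    (hx₂ : x₂ ∈ A) (hl : l ∉ A) : E.toAffine.addX x₁ x₂ l ∉ A := by
  intro hm
  have h1 : l + E.a₁ ∉ A := fun h => hl (by
    simpa using A.add_mem _ _ h (A.neg_mem _ hred.a₁.mem))
  apply mul_notMem_of_notMem hl h1
  have := A.add_mem _ _ hm (A.add_mem _ _ (A.add_mem _ _ hred.a₂.mem hx₁) hx₂)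
  convert this using 1
  rw [Affine.addX]; ring

theorem redTo_add_of_res (hred : Reduces π E W₀) {x₁ y₁ x₂ y₂ : K} {a₁ b₁ a₂ b₂ : k}
    {h₁ : E.toAffine.Nonsingular x₁ y₁} {h₂ : E.toAffine.Nonsingular x₂ y₂}
    {g₁ : W₀.toAffine.Nonsingular a₁ b₁} {g₂ : W₀.toAffine.Nonsingular a₂ b₂}
    (hx₁ : Res π x₁ a₁) (hy₁ : Res π y₁ b₁) (hx₂ : Res π x₂ a₂) (hy₂ : Res π y₂ b₂) :
    RedTo π W₀ (Affine.Point.some x₁ y₁ h₁ + .some x₂ y₂ h₂)
      (Affine.Point.some a₁ b₁ g₁ + .some a₂ b₂ g₂) := by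
  have hn₂ : Res π (E.toAffine.negY x₂ y₂) (W₀.toAffine.negY a₂ b₂) :=
    (hy₂.neg.sub (hred.a₁.mul hx₂)).sub hred.a₃
  by_cases hK : x₁ = x₂ ∧ y₁ = E.toAffine.negY x₂ y₂
  · rw [Affine.Point.add_of_Y_eq hK.1 hK.2, Affine.Point.add_of_Y_eq
      (hx₁.unique (hK.1 ▸ hx₂)) (hy₁.unique (hK.2 ▸ hn₂))]
    exact RedTo.zero
  rw [Affine.Point.add_some hK]
  set l := E.toAffine.slope x₁ x₂ y₁ y₂ with hl
  have hden : Res π (y₁ + y₂ + E.a₁ * x₂ + E.a₃) (b₁ + b₂ + W₀.a₁ * a₂ + W₀.a₃) :=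
    ((hy₁.add hy₂).add (hred.a₁.mul hx₂)).add hred.a₃
  have hnum : Res π (x₁ ^ 2 + x₁ * x₂ + x₂ ^ 2 + E.a₂ * (x₁ + x₂) + E.a₄ - E.a₁ * y₁)
      (a₁ ^ 2 + a₁ * a₂ + a₂ ^ 2 + W₀.a₂ * (a₁ + a₂) + W₀.a₄ - W₀.a₁ * b₁) :=
    ((((hx₁.pow 2).add (hx₁.mul hx₂)).add (hx₂.pow 2)).add
      (hred.a₂.mul (hx₁.add hx₂))).add hred.a₄ |>.sub (hred.a₁.mul hy₁)
  have hid : l * (y₁ + y₂ + E.a₁ * x₂ + E.a₃) =
      x₁ ^ 2 + x₁ * x₂ + x₂ ^ 2 + E.a₂ * (x₁ + x₂) + E.a₄ - E.a₁ * y₁ :=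
    slope_mul_den E.toAffine h₁.1 h₂.1 hK
  have hlin : l * (x₁ - x₂) = y₁ - y₂ ∨ (x₁ = x₂ ∧ y₁ = y₂) := by
    by_cases hx : x₁ = x₂
    · exact Or.inr ⟨hx, Affine.Y_eq_of_Y_ne h₁.1 h₂.1 hx fun h => hK ⟨hx, h⟩⟩
    · exact Or.inl (by rw [hl, Affine.slope_of_X_ne hx, div_mul_cancel₀ _ (sub_ne_zero.mpr hx)])
  by_cases hk : a₁ = a₂ ∧ b₁ = W₀.toAffine.negY a₂ b₂
  · rw [Affine.Point.add_of_Y_eq hk.1 hk.2]
    refine RedTo.of_notMem (addX_notMem hred hx₁.mem hx₂.mem fun hm => ?_)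
    have hlr := Res.of_mem π hm
    have hd0 : b₁ + b₂ + W₀.a₁ * a₂ + W₀.a₃ = 0 := by
      rw [hk.2, Affine.negY]; ring
    have hn0 : a₁ ^ 2 + a₁ * a₂ + a₂ ^ 2 + W₀.a₂ * (a₁ + a₂) + W₀.a₄ - W₀.a₁ * b₁ = 0 := by
      have := (hlr.mul hden).unique (hid ▸ hnum)
      rw [hd0, mul_zero] at this
      exact this.symm
    have hb : b₁ = b₂ := by
      rcases hlin with h | ⟨-, h⟩
      · have := (hlr.mul (hx₁.sub hx₂)).unique (h ▸ hy₁.sub hy₂)
        rw [hk.1, sub_self, mul_zero] at this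
        exact sub_eq_zero.mp this.symm
      · exact hy₁.unique (h ▸ hy₂)
    rcases ((Affine.nonsingular_iff' a₁ b₁).mp g₁).2 with h | h
    · apply h
      rw [← hk.1] at hn0
      linear_combination -hn0
    · apply h
      rw [← hk.1, ← hb] at hd0
      linear_combination hd0
  · rw [Affine.Point.add_some hk]
    have hlr : Res π l (W₀.toAffine.slope a₁ a₂ b₁ b₂) := by
      by_cases ha : a₁ = a₂
      · have hb : b₁ ≠ W₀.toAffine.negY a₂ b₂ := fun h => hk ⟨ha, h⟩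
        have hd : b₁ + b₂ + W₀.a₁ * a₂ + W₀.a₃ ≠ 0 := fun h => hb (by
          rw [Affine.negY]; linear_combination h)
        have hd' := hden.ne_zero hd
        have e := slope_mul_den W₀.toAffine g₁.1 g₂.1 hk
        have h' := hnum.div hden hd
        rwa [← hid, mul_div_cancel_right₀ _ hd', ← e, mul_div_cancel_right₀ _ hd] at h'
      · have hx : x₁ ≠ x₂ := fun h => ha (hx₁.unique (h ▸ hx₂))
        rw [hl, Affine.slope_of_X_ne hx, Affine.slope_of_X_ne ha]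
        exact (hy₁.sub hy₂).div (hx₁.sub hx₂) (sub_ne_zero.mpr ha)
    have hx₃ : Res π (E.toAffine.addX x₁ x₂ l)
        (W₀.toAffine.addX a₁ a₂ (W₀.toAffine.slope a₁ a₂ b₁ b₂)) :=
      (((hlr.pow 2).add (hred.a₁.mul hlr)).sub hred.a₂).sub hx₁ |>.sub hx₂
    exact RedTo.of_res hx₃
      ((((hlr.mul (hx₃.sub hx₁)).add hy₁).neg.sub (hred.a₁.mul hx₃)).sub hred.a₃)

theorem RedTo.add (hred : Reduces π E W₀) {P P' : E.toAffine.Point} {Q Q' : W₀.toAffine.Point}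
    (h : RedTo π W₀ P Q) (h' : RedTo π W₀ P' Q') : RedTo π W₀ (P + P') (Q + Q') := by
  rcases P with _ | ⟨x, y, hP⟩
  · obtain rfl : Q = 0 := h
    simpa only [← Affine.Point.zero_def, zero_add] using h'
  rcases P' with _ | ⟨x', y', hP'⟩
  · obtain rfl : Q' = 0 := h'
    simpa only [← Affine.Point.zero_def, add_zero] using h
  rcases h with ⟨hx, rfl⟩ | ⟨a, b, g, hx, hy, rfl⟩ <;>
    rcases h' with ⟨hx', rfl⟩ | ⟨a', b', g', hx', hy', rfl⟩
  · rw [add_zero]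
    generalize hs : Affine.Point.some x y hP + .some x' y' hP' = S
    rcases S with _ | ⟨x₃, y₃, h₃⟩
    · exact RedTo.zero
    · exact RedTo.of_notMem (notMem_of_notMem_add hred hx hx' hs)
  · obtain ⟨x₃, y₃, h₃, hs, ha, hb⟩ := exists_res_of_notMem_add hred (h₁ := hP) (h₂ := hP')
      hx hx' hy'
    rw [hs, zero_add]
    exact RedTo.of_res ha hb
  · obtain ⟨x₃, y₃, h₃, hs, ha, hb⟩ := exists_res_of_notMem_add hred (h₁ := hP') (h₂ := hP)
      hx' hx hy
    rw [add_comm, hs, add_zero]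
    exact RedTo.of_res ha hb
  · exact redTo_add_of_res hred hx hy hx' hy'

end

variable (π) in
/-- The points with nonsingular reduction. -/
def zeroComponent (hred : Reduces π E W₀) : AddSubgroup E.toAffine.Point where
  carrier := {P | ∃ Q, RedTo π W₀ P Q}
  zero_mem' := ⟨0, RedTo.zero⟩
  add_mem' := fun ⟨_, h⟩ ⟨_, h'⟩ => by
    classical exact ⟨_, h.add hred h'⟩
  neg_mem' := fun ⟨_, h⟩ => ⟨_, h.neg hred⟩

open Classical in
/-- The reduction map, zero on points with singular reduction. -/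
noncomputable def red (π : A →+* k) (W₀ : WeierstrassCurve k) (P : E.toAffine.Point) :
    W₀.toAffine.Point :=
  if h : ∃ Q, RedTo π W₀ P Q then h.choose else 0

omit [DecidableEq K] [IsLocalHom π] in
theorem red_eq {P : E.toAffine.Point} {Q : W₀.toAffine.Point} (h : RedTo π W₀ P Q) :
    red π W₀ P = Q := by
  have h' : ∃ Q, RedTo π W₀ P Q := ⟨Q, h⟩
  rw [red, dif_pos h']
  exact h'.choose_spec.unique h

variable [DecidableEq k]

theorem RedTo.nsmul (hred : Reduces π E W₀) {P : E.toAffine.Point} {Q : W₀.toAffine.Point}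
    (h : RedTo π W₀ P Q) (n : ℕ) : RedTo π W₀ (n • P) (n • Q) := by
  induction n with
  | zero => simpa only [zero_nsmul] using RedTo.zero
  | succ n ih => simpa only [succ_nsmul] using ih.add hred h

omit [DecidableEq K] [DecidableEq k] in
/-- With good reduction every point has a reduction. -/
theorem exists_redTo_of_Δ_ne_zero (hred : Reduces π E W₀) (hΔ : W₀.Δ ≠ 0)
    (P : E.toAffine.Point) : ∃ Q, RedTo π W₀ P Q := by
  rcases P with _ | ⟨x, y, h⟩
  · exact ⟨0, RedTo.zero⟩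
  by_cases hx : x ∈ A
  · have hy := Res.of_mem π (hred.y_mem h.1 hx)
    have he := hred.equation h.1 (Res.of_mem π hx) hy
    exact ⟨_, RedTo.of_res (h₀ := (Affine.equation_iff_nonsingular_of_Δ_ne_zero hΔ).mp he)
      (Res.of_mem π hx) hy⟩
  · exact ⟨0, RedTo.of_notMem hx⟩

end Fermat.Agent.EC.Reduction
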