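import Fermat.Agent.EC.Reduction.Basic

/-!
The kernel of reduction has no torsion of order prime to the residue characteristic.

For a nonzero point of the kernel put `u = x / y`. In the model scaled by `u` the point reduces
to a nonsingular affine point of the cuspidal cubic `y² = x³`, whose smooth locus is the additive
group via `x / y`.
-/

set_option autoImplicit false

namespace Fermat.Agent.EC.Reduction

open WeierstrassCurve

variable {K k : Type*} [Field K] [Field k]

/-- The cuspidal cubic `y² = x³`. -/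
def cusp (k : Type*) [Field k] : WeierstrassCurve k := ⟨0, 0, 0, 0, 0⟩

theorem cusp_equation_iff {x y : k} : (cusp k).toAffine.Equation x y ↔ y ^ 2 = x ^ 3 := by
  simp [Affine.equation_iff, cusp]

theorem cusp_nonsingular_iff {x y : k} :
    (cusp k).toAffine.Nonsingular x y ↔ y ^ 2 = x ^ 3 ∧ x ≠ 0 := by
  rw [Affine.nonsingular_iff', cusp_equation_iff]
  simp only [cusp, zero_mul, mul_zero, add_zero, zero_sub, neg_ne_zero]
  refine and_congr_right fun he => ⟨?_, fun hx => ?_⟩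
  · rintro h rfl
    have : y = 0 := by simpa using he
    simp [this] at h
  · by_cases h3 : (3 : k) = 0
    · refine Or.inr (mul_ne_zero (fun h2 => one_ne_zero (α := k) ?_) fun hy => hx ?_)
      · linear_combination h3 - h2
      · exact eq_zero_of_pow_eq_zero (by rw [← he, hy]; ring)
    · exact Or.inl (mul_ne_zero h3 (pow_ne_zero 2 hx))

/-- The isomorphism of the smooth part of the cuspidal cubic with the additive group. -/
def cuspParam : (cusp k).toAffine.Point → k
  | .zero => 0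
  | .some x y _ => x / y

theorem exists_cusp_param {x y : k} (h : (cusp k).toAffine.Nonsingular x y) :
    ∃ t : k, t ≠ 0 ∧ x = (t ^ 2)⁻¹ ∧ y = (t ^ 3)⁻¹ ∧ x / y = t := by
  obtain ⟨he, hx⟩ := cusp_nonsingular_iff.mp h
  have hy : y ≠ 0 := fun hy => hx (eq_zero_of_pow_eq_zero (by rw [← he, hy]; ring))
  refine ⟨x / y, div_ne_zero hx hy, ?_, ?_, rfl⟩ <;> field_simp <;> grind

variable [DecidableEq k]

theorem cuspParam_add (P Q : (cusp k).toAffine.Point) :
    cuspParam (P + Q) = cuspParam P + cuspParam Q := by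
  rcases P with _ | ⟨x₁, y₁, h₁⟩
  · rw [← Affine.Point.zero_def, zero_add]
    exact (zero_add (cuspParam Q)).symm
  rcases Q with _ | ⟨x₂, y₂, h₂⟩
  · rw [← Affine.Point.zero_def, add_zero]
    exact (add_zero (cuspParam (Affine.Point.some x₁ y₁ h₁))).symm
  obtain ⟨t₁, ht₁, hx₁, hy₁, hp₁⟩ := exists_cusp_param h₁
  obtain ⟨t₂, ht₂, hx₂, hy₂, hp₂⟩ := exists_cusp_param h₂
  have hn : (cusp k).toAffine.negY x₂ y₂ = -y₂ := by simp [Affine.negY, cusp]
  by_cases hK : x₁ = x₂ ∧ y₁ = (cusp k).toAffine.negY x₂ y₂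
  · rw [Affine.Point.add_of_Y_eq hK.1 hK.2]
    simp only [cuspParam]
    rw [hK.1, hK.2, hn, div_neg, neg_add_cancel]
  rw [Affine.Point.add_some hK]
  simp only [cuspParam]
  rw [hp₁, hp₂]
  have hs : t₁ + t₂ ≠ 0 := fun hs => hK ⟨by
    rw [hx₁, hx₂, eq_neg_of_add_eq_zero_left hs]; ring, by
    rw [hn, hy₁, hy₂, eq_neg_of_add_eq_zero_left hs, neg_pow, inv_eq_one_div]; field_simp⟩
  have hd : t₁ * t₂ * (t₁ + t₂) ≠ 0 := mul_ne_zero (mul_ne_zero ht₁ ht₂) hs
  have hl : (cusp k).toAffine.slope x₁ x₂ y₁ y₂ =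
      (t₁ ^ 2 + t₁ * t₂ + t₂ ^ 2) / (t₁ * t₂ * (t₁ + t₂)) := by
    by_cases hx : x₁ = x₂
    · have hy := Affine.Y_eq_of_Y_ne h₁.1 h₂.1 hx fun h => hK ⟨hx, h⟩
      have ht : t₁ = t₂ := by rw [← hp₁, ← hp₂, hx, hy]
      subst ht
      rw [Affine.slope_of_Y_ne hx fun h => hK ⟨hx, h⟩, hx₁, hy₁]
      simp only [Affine.negY, cusp, zero_mul, mul_zero, add_zero, sub_zero, sub_neg_eq_add]
      have h2 : (t₁ + t₁) ≠ 0 := hs
      rw [div_eq_div_iff ?_ hd]
      · field_simp
        ring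
      · intro h0
        apply h2
        field_simp at h0
        grind
    · rw [Affine.slope_of_X_ne hx, div_eq_div_iff (sub_ne_zero.mpr hx) hd, hx₁, hx₂, hy₁, hy₂]
      field_simp
      ring
  have hX : (cusp k).toAffine.addX x₁ x₂ ((cusp k).toAffine.slope x₁ x₂ y₁ y₂) =
      ((t₁ + t₂) ^ 2)⁻¹ := by
    rw [hl, hx₁, hx₂]
    simp only [Affine.addX, cusp, zero_mul, add_zero, sub_zero]
    field_simp
    ring
  have hY : (cusp k).toAffine.addY x₁ x₂ y₁ ((cusp k).toAffine.slope x₁ x₂ y₁ y₂) =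
      ((t₁ + t₂) ^ 3)⁻¹ := by
    rw [Affine.addY, Affine.negAddY, hX, hl, hx₁, hy₁]
    simp only [Affine.negY, cusp, zero_mul, sub_zero]
    field_simp
    ring
  rw [hX, hY]
  field_simp

/-- `cuspParam` as a homomorphism. -/
def cuspParamHom : (cusp k).toAffine.Point →+ k :=
  AddMonoidHom.mk' cuspParam cuspParam_add

variable [DecidableEq K] {A : ValuationSubring K}

/-- Scaling the coordinates by `u`. -/
def scaleCurve (E : WeierstrassCurve K) (u : K) : WeierstrassCurve K :=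
  ⟨u * E.a₁, u ^ 2 * E.a₂, u ^ 3 * E.a₃, u ^ 4 * E.a₄, u ^ 6 * E.a₆⟩

omit [DecidableEq K] in
theorem scale_nonsingular {E : WeierstrassCurve K} {u : K} (hu : u ≠ 0) {x y : K}
    (h : E.toAffine.Nonsingular x y) :
    (scaleCurve E u).toAffine.Nonsingular (u ^ 2 * x) (u ^ 3 * y) := by
  rw [Affine.nonsingular_iff', Affine.equation_iff] at h ⊢
  simp only [scaleCurve]
  refine ⟨by linear_combination u ^ 6 * h.1, h.2.imp (fun hX h0 => hX ?_) (fun hY h0 => hY ?_)⟩
  · exact mul_left_cancel₀ (pow_ne_zero 4 hu) (by linear_combination h0)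
  · exact mul_left_cancel₀ (pow_ne_zero 3 hu) (by linear_combination h0)

/-- The map on points induced by scaling the coordinates. -/
def scalePoint {E : WeierstrassCurve K} {u : K} (hu : u ≠ 0) :
    E.toAffine.Point → (scaleCurve E u).toAffine.Point
  | .zero => 0
  | .some _ _ h => .some _ _ (scale_nonsingular hu h)

theorem scalePoint_add {E : WeierstrassCurve K} {u : K} (hu : u ≠ 0) (P Q : E.toAffine.Point) :
    scalePoint hu (P + Q) = scalePoint hu P + scalePoint hu Q := by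
  rcases P with _ | ⟨x₁, y₁, h₁⟩
  · rfl
  rcases Q with _ | ⟨x₂, y₂, h₂⟩
  · rfl
  have hn : (scaleCurve E u).toAffine.negY (u ^ 2 * x₂) (u ^ 3 * y₂) =
      u ^ 3 * E.toAffine.negY x₂ y₂ := by
    simp only [Affine.negY, scaleCurve]; ring
  by_cases hK : x₁ = x₂ ∧ y₁ = E.toAffine.negY x₂ y₂
  · rw [Affine.Point.add_of_Y_eq hK.1 hK.2]
    exact (Affine.Point.add_of_Y_eq (by rw [hK.1]) (by rw [hK.2, hn])).symm
  have hK' : ¬(u ^ 2 * x₁ = u ^ 2 * x₂ ∧
      u ^ 3 * y₁ = (scaleCurve E u).toAffine.negY (u ^ 2 * x₂) (u ^ 3 * y₂)) := fun h =>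
    hK ⟨mul_left_cancel₀ (pow_ne_zero 2 hu) h.1,
      mul_left_cancel₀ (pow_ne_zero 3 hu) (h.2.trans hn)⟩
  rw [Affine.Point.add_some hK]
  simp only [scalePoint, Affine.Point.add_some hK', Affine.Point.some.injEq]
  have hl : (scaleCurve E u).toAffine.slope (u ^ 2 * x₁) (u ^ 2 * x₂) (u ^ 3 * y₁) (u ^ 3 * y₂) =
      u * E.toAffine.slope x₁ x₂ y₁ y₂ := by
    by_cases hx : x₁ = x₂
    · have hyy := Affine.Y_eq_of_Y_ne h₁.1 h₂.1 hx fun h => hK ⟨hx, h⟩
      subst hx hyy
      have hy : y₁ ≠ E.toAffine.negY x₁ y₁ := fun h => hK ⟨rfl, h⟩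
      rw [Affine.slope_of_Y_ne rfl hy, Affine.slope_of_Y_ne rfl fun h => hK' ⟨rfl, h⟩,
        mul_div_assoc', div_eq_div_iff (sub_ne_zero.mpr fun h => hK' ⟨rfl, h⟩)
          (sub_ne_zero.mpr hy)]
      simp only [Affine.negY, scaleCurve]
      ring
    · rw [Affine.slope_of_X_ne hx, Affine.slope_of_X_ne fun h => hx
        (mul_left_cancel₀ (pow_ne_zero 2 hu) h), mul_div_assoc', div_eq_div_iff
        (by rw [← mul_sub]; exact mul_ne_zero (pow_ne_zero 2 hu) (sub_ne_zero.mpr hx))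
        (sub_ne_zero.mpr hx)]
      ring
  rw [hl]
  constructor <;> simp only [Affine.addX, Affine.addY, Affine.negAddY, Affine.negY, scaleCurve] <;>
    ring

variable {π : A →+* k} [IsLocalHom π] {E : WeierstrassCurve K} {W₀ : WeierstrassCurve k}

/-- A point of the kernel of reduction killed by an integer prime to the residue characteristic
is zero. -/
theorem eq_zero_of_redTo_zero_of_nsmul_eq_zero (hred : Reduces π E W₀) {P : E.toAffine.Point}
    (h : RedTo π W₀ P 0) {n : ℕ} (hn : (n : k) ≠ 0) (hP : n • P = 0) : P = 0 := by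
  rcases P with _ | ⟨x, y, hns⟩
  · rfl
  exfalso
  have hx : x ∉ A := by
    rcases h with ⟨hx, -⟩ | ⟨x₀, y₀, h₀, -, -, h0⟩
    · exact hx
    · exact absurd h0.symm (Affine.Point.some_ne_zero h₀)
  obtain ⟨hy, hu⟩ := hred.res_div_of_notMem hns.1 hx
  have hx0 : x ≠ 0 := fun h0 => hx (h0 ▸ A.zero_mem)
  have hy0 : y ≠ 0 := fun h0 => hy (h0 ▸ A.zero_mem)
  have hi := Res.inv_of_notMem π hx
  have hu0 : x / y ≠ 0 := div_ne_zero hx0 hy0
  have hw : Res π ((x / y) ^ 2 * x) 1 := by
    have e := (Affine.equation_iff x y).mp hns.1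
    have hsum : Res π (1 + E.a₁ * (x / y) + E.a₃ * ((x / y) * x⁻¹)) 1 := by
      simpa using (Res.one.add (hred.a₁.mul hu)).add (hred.a₃.mul (hu.mul hi))
    have hrhs : Res π (1 + E.a₂ * x⁻¹ + E.a₄ * x⁻¹ ^ 2 + E.a₆ * x⁻¹ ^ 3) 1 := by
      simpa using ((Res.one.add (hred.a₂.mul hi)).add (hred.a₄.mul (hi.pow 2))).add
        (hred.a₆.mul (hi.pow 3))
    have hr := hsum.div hrhs one_ne_zero
    rw [div_one] at hr
    convert hr using 1
    rw [eq_div_iff (hrhs.ne_zero one_ne_zero)]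
    field_simp
    linear_combination -e
  have hY : Res π ((x / y) ^ 3 * y) 1 := by
    convert hw using 1
    field_simp
  have hred' : Reduces π (scaleCurve E (x / y)) (cusp k) :=
    ⟨by simpa [scaleCurve, cusp] using hu.mul hred.a₁,
      by simpa [scaleCurve, cusp] using (hu.pow 2).mul hred.a₂,
      by simpa [scaleCurve, cusp] using (hu.pow 3).mul hred.a₃,
      by simpa [scaleCurve, cusp] using (hu.pow 4).mul hred.a₄,
      by simpa [scaleCurve, cusp] using (hu.pow 6).mul hred.a₆⟩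
  have hns₀ : (cusp k).toAffine.Nonsingular 1 1 := cusp_nonsingular_iff.mpr ⟨by ring, one_ne_zero⟩
  have h' : RedTo π (cusp k) (AddMonoidHom.mk' (scalePoint hu0) (scalePoint_add hu0)
      (Affine.Point.some x y hns)) (.some 1 1 hns₀) :=
    RedTo.of_res hw hY
  have h'' := h'.nsmul hred' n
  rw [← map_nsmul, hP, map_zero] at h''
  have := congrArg cuspParamHom (h''.unique RedTo.zero)
  rw [map_nsmul, map_zero, nsmul_eq_mul] at this
  exact hn (by simpa [cuspParamHom, cuspParam] using this)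

/-- Points of the same finite order prime to the residue characteristic with the same nonsingular
reduction are equal. -/
theorem eq_of_redTo_of_nsmul_eq_zero (hred : Reduces π E W₀) {P P' : E.toAffine.Point}
    {Q : W₀.toAffine.Point} (h : RedTo π W₀ P Q) (h' : RedTo π W₀ P' Q) {n : ℕ}
    (hn : (n : k) ≠ 0) (hP : n • P = 0) (hP' : n • P' = 0) : P = P' :=
  sub_eq_zero.mp <| eq_zero_of_redTo_zero_of_nsmul_eq_zero hred
    (by simpa [sub_eq_add_neg] using h.add hred (h'.neg hred)) hn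
    (by rw [nsmul_sub, hP, hP', sub_zero])

end Fermat.Agent.EC.Reduction
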