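import Mathlib.RingTheory.Valuation.ValuationSubring
import Mathlib.RingTheory.LocalRing.RingHom.Basic

/-!
Residues along a valuation subring: `Res π a b` says that `a` lies in the valuation
subring and reduces to `b`.
-/

set_option autoImplicit false

namespace Fermat.Agent.EC.Reduction

variable {K k : Type*} [Field K] [Field k] {A : ValuationSubring K}

/-- `a` lies in `A` and `π` sends it to `b`. -/
def Res (π : A →+* k) (a : K) (b : k) : Prop :=
  ∃ h : a ∈ A, π ⟨a, h⟩ = b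

namespace Res

variable {π : A →+* k} {a a' : K} {b b' : k}

theorem mem (h : Res π a b) : a ∈ A := h.1

theorem of_mem (π : A →+* k) (h : a ∈ A) : Res π a (π ⟨a, h⟩) := ⟨h, rfl⟩

theorem unique (h : Res π a b) (h' : Res π a b') : b = b' := by
  rw [← h.2, ← h'.2]

theorem zero : Res π 0 0 := ⟨A.zero_mem, map_zero π⟩

theorem one : Res π 1 1 := ⟨A.one_mem, map_one π⟩

theorem add (h : Res π a b) (h' : Res π a' b') : Res π (a + a') (b + b') := by
  obtain ⟨h, rfl⟩ := h; obtain ⟨h', rfl⟩ := h'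
  exact ⟨A.add_mem _ _ h h', map_add π ⟨a, h⟩ ⟨a', h'⟩⟩

theorem mul (h : Res π a b) (h' : Res π a' b') : Res π (a * a') (b * b') := by
  obtain ⟨h, rfl⟩ := h; obtain ⟨h', rfl⟩ := h'
  exact ⟨A.mul_mem _ _ h h', map_mul π ⟨a, h⟩ ⟨a', h'⟩⟩

theorem neg (h : Res π a b) : Res π (-a) (-b) := by
  obtain ⟨h, rfl⟩ := h
  exact ⟨A.neg_mem _ h, map_neg π ⟨a, h⟩⟩

theorem sub (h : Res π a b) (h' : Res π a' b') : Res π (a - a') (b - b') := by
  simpa only [sub_eq_add_neg] using h.add h'.neg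

theorem pow (h : Res π a b) (n : ℕ) : Res π (a ^ n) (b ^ n) := by
  induction n with
  | zero => simpa using one
  | succ n ih => simpa only [pow_succ] using ih.mul h

theorem natCast (n : ℕ) : Res π (n : K) (n : k) :=
  ⟨natCast_mem A n, by
    rw [show (⟨(n : K), _⟩ : A) = (n : A) from Subtype.ext (by simp), map_natCast]⟩

theorem ofNat (n : ℕ) [n.AtLeastTwo] :
    Res π (OfNat.ofNat n : K) (OfNat.ofNat n : k) :=
  natCast n

theorem intCast (n : ℤ) : Res π (n : K) (n : k) :=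
  ⟨intCast_mem A n, by
    rw [show (⟨(n : K), _⟩ : A) = (n : A) from Subtype.ext (by simp), map_intCast]⟩

theorem ne_zero (h : Res π a b) (hb : b ≠ 0) : a ≠ 0 := fun ha =>
  hb (h.unique (ha ▸ Res.zero))

variable [IsLocalHom π]

theorem inv_of_notMem (π : A →+* k) [IsLocalHom π] (ha : a ∉ A) : Res π a⁻¹ 0 := by
  have hm : a⁻¹ ∈ A := (A.mem_or_inv_mem a).resolve_left ha
  refine ⟨hm, by_contra fun hne => ha ?_⟩
  obtain ⟨v, hv⟩ := (IsLocalHom.map_nonunit (f := π) (⟨a⁻¹, hm⟩ : A)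
    (Ne.isUnit hne)).exists_right_inv
  have h1 : a⁻¹ * (v : K) = 1 := congrArg (fun z : A => (z : K)) hv
  have : a = (v : K) := by
    rw [← inv_inv (v : K), ← eq_inv_of_mul_eq_one_left h1, inv_inv]
  exact this ▸ v.2

theorem inv (h : Res π a b) (hb : b ≠ 0) : Res π a⁻¹ b⁻¹ := by
  have ha := h.ne_zero hb
  have hm : a⁻¹ ∈ A := by
    by_contra hn
    exact hb (h.unique (by simpa using inv_of_notMem π hn))
  refine ⟨hm, eq_inv_of_mul_eq_one_right ?_⟩
  have := (h.mul (of_mem π hm))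
  exact this.unique (by rw [mul_inv_cancel₀ ha]; exact one)

theorem div (h : Res π a b) (h' : Res π a' b') (hb : b' ≠ 0) : Res π (a / a') (b / b') := by
  simpa only [div_eq_mul_inv] using h.mul (h'.inv hb)

end Res

theorem mul_notMem_of_notMem {A : ValuationSubring K} {a b : K} (ha : a ∉ A) (hb : b ∉ A) :
    a * b ∉ A := fun h => by
  have hb' : b⁻¹ ∈ A := (A.mem_or_inv_mem b).resolve_left hb
  have := A.mul_mem _ _ h hb'
  rw [mul_inv_cancel_right₀ (fun h0 : b = 0 => hb (h0 ▸ A.zero_mem))] at this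
  exact ha this

end Fermat.Agent.EC.Reduction
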